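import Mathlib

/-!
# Homogeneous cyclotomic values

For integers `a`, `b` the integer `cyc n a b = b ^ φ(n) Φ_n(a / b)` divides `a ^ n - b ^ n`. Its
prime divisors `p` with `p ∤ n` are the primes which divide `a ^ n - b ^ n` but no `a ^ k - b ^ k`
with `0 < k < n`; there is at most one other prime divisor, the greatest prime divisor of `n`, and
it divides `cyc n a b` only once if `n ≥ 3`.
-/

namespace Fermat.Agent.Cor.Zsig

open Polynomial

/-- The value `Φ_n(a, b)` of the homogeneous cyclotomic form. -/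
noncomputable def cyc (n : ℕ) (a b : ℤ) : ℤ := ((cyclotomic n ℤ).scaleRoots b).eval a

theorem scale_eval {R : Type*} [Field R] (P : ℤ[X]) (a b : ℤ) (hb : (b : R) ≠ 0) :
    (((P.scaleRoots b).eval a : ℤ) : R) =
      (b : R) ^ P.natDegree * (P.map (Int.castRingHom R)).eval ((a : R) / b) := by
  have h := scaleRoots_eval₂_mul (p := P) (Int.castRingHom R) ((a : R) / b) b
  have h1 : (Int.castRingHom R) b * ((a : R) / b) = (Int.castRingHom R) a := by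
    simp only [eq_intCast]
    field_simp
  rw [h1, eval₂_at_apply, eval₂_eq_eval_map] at h
  simpa using h

theorem cyc_cast {R : Type*} [Field R] (n : ℕ) (a b : ℤ) (hb : (b : R) ≠ 0) :
    ((cyc n a b : ℤ) : R) = (b : R) ^ n.totient * (cyclotomic n R).eval ((a : R) / b) := by
  rw [cyc, scale_eval _ a b hb, natDegree_cyclotomic, map_cyclotomic]

theorem scale_X_pow_sub_one (d : ℕ) (a b : ℤ) (hb : b ≠ 0) :
    ((X ^ d - 1 : ℤ[X]).scaleRoots b).eval a = a ^ d - b ^ d := by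
  have hb' : ((b : ℤ) : ℚ) ≠ 0 := by exact_mod_cast hb
  have h := scale_eval (R := ℚ) (X ^ d - 1) a b hb'
  have hdeg : (X ^ d - 1 : ℤ[X]).natDegree = d := by
    rw [← C_1]; exact natDegree_X_pow_sub_C
  rw [hdeg] at h
  have h2 : ((((X ^ d - 1 : ℤ[X]).scaleRoots b).eval a : ℤ) : ℚ) = ((a ^ d - b ^ d : ℤ) : ℚ) := by
    rw [h]
    simp only [Polynomial.map_sub, Polynomial.map_pow, Polynomial.map_X, Polynomial.map_one,
      eval_sub, eval_pow, eval_X, eval_one]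
    push_cast
    rw [div_pow]
    field_simp
  exact_mod_cast h2

theorem mul_cyc_dvd {n d : ℕ} (hd : d ∈ n.properDivisors) (a b : ℤ) (hb : b ≠ 0) :
    (a ^ d - b ^ d) * cyc n a b ∣ a ^ n - b ^ n := by
  have h := scaleRoots_dvd (r := b) _ _ (X_pow_sub_one_mul_cyclotomic_dvd_X_pow_sub_one_of_dvd ℤ hd)
  rw [mul_scaleRoots_of_noZeroDivisors] at h
  have h2 := eval_dvd (x := a) h
  rwa [eval_mul, scale_X_pow_sub_one d a b hb, scale_X_pow_sub_one n a b hb] at h2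

theorem cyc_dvd (n : ℕ) (a b : ℤ) (hb : b ≠ 0) : cyc n a b ∣ a ^ n - b ^ n := by
  have h := scaleRoots_dvd (r := b) _ _ (cyclotomic.dvd_X_pow_sub_one n ℤ)
  have h2 := eval_dvd (x := a) h
  rwa [scale_X_pow_sub_one n a b hb] at h2

theorem root_of_dvd {n p : ℕ} [Fact p.Prime] {a b : ℤ} (hb : ¬ (p : ℤ) ∣ b)
    (h : (p : ℤ) ∣ cyc n a b) : (cyclotomic n (ZMod p)).IsRoot ((a : ZMod p) / b) := by
  have hb' : ((b : ℤ) : ZMod p) ≠ 0 := fun h0 => hb ((ZMod.intCast_zmod_eq_zero_iff_dvd b p).1 h0)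
  have h1 := cyc_cast (R := ZMod p) n a b hb'
  rw [(ZMod.intCast_zmod_eq_zero_iff_dvd _ p).2 h] at h1
  exact (mul_eq_zero.1 h1.symm).resolve_left (pow_ne_zero _ hb')

theorem pow_eq_one_iff {p : ℕ} [Fact p.Prime] {a b : ℤ} (hb : ¬ (p : ℤ) ∣ b) (k : ℕ) :
    ((a : ZMod p) / b) ^ k = 1 ↔ (p : ℤ) ∣ a ^ k - b ^ k := by
  have hb' : ((b : ℤ) : ZMod p) ≠ 0 := fun h0 => hb ((ZMod.intCast_zmod_eq_zero_iff_dvd b p).1 h0)
  rw [div_pow, div_eq_one_iff_eq (pow_ne_zero _ hb'), ← ZMod.intCast_zmod_eq_zero_iff_dvd]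
  push_cast
  exact sub_eq_zero.symm

/-- A prime divisor of `Φ_n(a, b)` which does not divide `n` is primitive. -/
theorem prim_of_dvd_cyc {n p : ℕ} (hp : p.Prime) {a b : ℤ} (hb : ¬ (p : ℤ) ∣ b)
    (h : (p : ℤ) ∣ cyc n a b) (hn : ¬ p ∣ n) {k : ℕ} (hk : 0 < k) (hkn : k < n) :
    ¬ (p : ℤ) ∣ a ^ k - b ^ k := by
  have : Fact p.Prime := ⟨hp⟩
  have : NeZero ((n : ℕ) : ZMod p) := ⟨fun h0 => hn ((ZMod.natCast_eq_zero_iff n p).1 h0)⟩
  have h1 := isRoot_cyclotomic_iff.1 (root_of_dvd hb h)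
  intro h2
  rw [← pow_eq_one_iff hb, h1.pow_eq_one_iff_dvd] at h2
  exact absurd (Nat.le_of_dvd hk h2) (by omega)

/-- If a prime divisor `p` of `Φ_n(a, b)` divides `n` then `n = p ^ k m` with `m ∣ p - 1`. -/
theorem exists_of_dvd_cyc {n p : ℕ} (hp : p.Prime) {a b : ℤ} (hb : ¬ (p : ℤ) ∣ b)
    (h : (p : ℤ) ∣ cyc n a b) (hn0 : 0 < n) (hn : p ∣ n) :
    ∃ k m, 1 ≤ k ∧ ¬ p ∣ m ∧ n = p ^ k * m ∧ m ∣ p - 1 ∧ (p : ℤ) ∣ a ^ m - b ^ m := by
  have : Fact p.Prime := ⟨hp⟩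
  obtain ⟨k, m, hm, rfl⟩ := Nat.exists_eq_pow_mul_and_not_dvd hn0.ne' p hp.one_lt.ne'
  have : NeZero ((m : ℕ) : ZMod p) := ⟨fun h0 => hm ((ZMod.natCast_eq_zero_iff m p).1 h0)⟩
  have h1 := isRoot_cyclotomic_prime_pow_mul_iff_of_charP.1 (root_of_dvd hb h)
  have hk : 1 ≤ k := by
    rcases Nat.eq_zero_or_pos k with rfl | hk
    · rw [pow_zero, one_mul] at hn
      exact absurd hn hm
    · exact hk
  refine ⟨k, m, hk, hm, rfl, ?_, (pow_eq_one_iff hb m).1 h1.pow_eq_one⟩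
  have hm0 : m ≠ 0 := by
    rintro rfl
    exact hm (dvd_zero p)
  rw [h1.eq_orderOf]
  exact ZMod.orderOf_dvd_card_sub_one (h1.ne_zero hm0)

/-- A prime divisor of `n ≥ 3` divides `Φ_n(a, b)` at most once. -/
theorem sq_not_dvd {n p : ℕ} (hp : p.Prime) {a b : ℤ} (ha : ¬ (p : ℤ) ∣ a) (hb : ¬ (p : ℤ) ∣ b)
    (hne : ∀ d : ℕ, 0 < d → a ^ d ≠ b ^ d) (h : (p : ℤ) ∣ cyc n a b) (hn3 : 3 ≤ n) (hn : p ∣ n) :
    ¬ (p : ℤ) ^ 2 ∣ cyc n a b := by
  intro hsq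
  have hb0 : b ≠ 0 := by
    rintro rfl
    exact hb (dvd_zero _)
  have hpp : Prime (p : ℤ) := Nat.prime_iff_prime_int.1 hp
  obtain ⟨k, m, hk, hm, hnk, hmp, hdm⟩ := exists_of_dvd_cyc hp hb h (by omega) hn
  obtain ⟨d, hd⟩ := hn
  have hd0 : 0 < d := Nat.pos_of_ne_zero (by rintro rfl; omega)
  have hdn : d ∈ n.properDivisors := by
    rw [Nat.mem_properDivisors]
    refine ⟨⟨p, by rw [hd, mul_comm]⟩, ?_⟩
    have := hp.two_le
    nlinarith
  have hmd : m ∣ d := by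
    obtain ⟨l, rfl⟩ : ∃ l, k = l + 1 := ⟨k - 1, by omega⟩
    have : d = p ^ l * m := by
      have h1 : p * d = p * (p ^ l * m) := by rw [← hd, hnk, pow_succ]; ring
      exact Nat.eq_of_mul_eq_mul_left hp.pos h1
    exact ⟨p ^ l, by rw [this, mul_comm]⟩
  have hxy : (p : ℤ) ∣ a ^ d - b ^ d := by
    obtain ⟨e, rfl⟩ := hmd
    rw [pow_mul, pow_mul]
    exact hdm.trans (sub_dvd_pow_sub_pow _ _ e)
  have hS : cyc n a b ∣ ∑ i ∈ Finset.range p, (a ^ d) ^ i * (b ^ d) ^ (p - 1 - i) := by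
    have h1 := mul_cyc_dvd hdn a b hb0
    have h2 : a ^ n - b ^ n = (a ^ d - b ^ d) *
        ∑ i ∈ Finset.range p, (a ^ d) ^ i * (b ^ d) ^ (p - 1 - i) := by
      rw [mul_comm (a ^ d - b ^ d), geom_sum₂_mul, ← pow_mul, ← pow_mul, hd, mul_comm d p]
    rw [h2] at h1
    exact (mul_dvd_mul_iff_left (sub_ne_zero.2 (hne d hd0))).1 h1
  rcases hp.eq_two_or_odd' with rfl | hodd
  · -- `p = 2`
    have hm1 : m = 1 := by
      have : m ∣ 1 := hmp
      exact Nat.dvd_one.1 this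
    have hk2 : 2 ≤ k := by
      by_contra hk2
      have : k = 1 := by omega
      subst this
      omega
    have hde : 2 ∣ d := by
      obtain ⟨l, rfl⟩ : ∃ l, k = l + 2 := ⟨k - 2, by omega⟩
      refine ⟨2 ^ l, ?_⟩
      have h1 : 2 * d = 2 * (2 * 2 ^ l) := by rw [← hd, hnk, hm1, pow_add]; ring
      omega
    obtain ⟨e, rfl⟩ := hde
    have h4 : (2 : ℤ) ^ 2 ∣ a ^ (2 * e) + b ^ (2 * e) := by
      have := hsq.trans hS
      simpa [Finset.sum_range_succ, add_comm] using this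
    have hodd : ∀ x : ℤ, ¬ (2 : ℤ) ∣ x → (x ^ (2 * e)) % 4 = 1 := by
      intro x hx
      have h1 : (x ^ e) % 2 = 1 := by
        have : ¬ (2 : ℤ) ∣ x ^ e := fun h => hx (Int.prime_two.dvd_of_dvd_pow h)
        omega
      rw [mul_comm, pow_mul]
      generalize x ^ e = y at h1
      obtain ⟨z, hz⟩ : ∃ z, y = 2 * z + 1 := ⟨y / 2, by omega⟩
      rw [hz]
      ring_nf
      omega
    have h5 := hodd a ha
    have h6 := hodd b hb
    norm_num at h4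
    omega
  · obtain ⟨c, hc⟩ := hxy
    have hx : a ^ d = b ^ d + p * c := by rw [← hc]; ring
    have h1 := odd_sq_dvd_geom_sum₂_sub (b ^ d) c hodd
    have h2 : (p : ℤ) ^ 2 ∣ ∑ i ∈ Finset.range p, (b ^ d + p * c) ^ i * (b ^ d) ^ (p - 1 - i) := by
      rw [← hx]
      exact hsq.trans hS
    have h3 : (p : ℤ) ^ 2 ∣ p * (b ^ d) ^ (p - 1) := (dvd_sub_right h2).1 h1
    rw [sq] at h3
    have h4 := (mul_dvd_mul_iff_left hpp.ne_zero).1 h3
    exact hb (hpp.dvd_of_dvd_pow (hpp.dvd_of_dvd_pow h4))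

/-- The lower bound for `Φ_n(a, b)`, `n ≥ 2`. -/
theorem lt_cyc {n : ℕ} (hn : 2 ≤ n) {a b : ℕ} (hb : 0 < b) (hab : b < a) :
    ((a : ℤ) - b) ^ n.totient < cyc n a b := by
  have hb' : (((b : ℕ) : ℤ) : ℝ) ≠ 0 := by positivity
  have hbr : (0 : ℝ) < b := by exact_mod_cast hb
  have habr : (b : ℝ) < a := by exact_mod_cast hab
  have hq : 1 < (a : ℝ) / b := by rw [lt_div_iff₀ hbr]; linarith
  have h := sub_one_pow_totient_lt_cyclotomic_eval hn hq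
  have h1 := cyc_cast (R := ℝ) n a b hb'
  have h2 : ((((a : ℤ) - b) ^ n.totient : ℤ) : ℝ) < ((cyc n a b : ℤ) : ℝ) := by
    rw [h1]
    push_cast
    calc ((a : ℝ) - b) ^ n.totient = (b : ℝ) ^ n.totient * ((a : ℝ) / b - 1) ^ n.totient := by
          rw [← mul_pow]; congr 1; field_simp
      _ < (b : ℝ) ^ n.totient * eval ((a : ℝ) / b) (cyclotomic n ℝ) :=
          mul_lt_mul_of_pos_left h (by positivity)
  exact_mod_cast h2

theorem le_cyc (n : ℕ) {a b : ℕ} (hb : 0 < b) (hab : b < a) :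
    ((a : ℤ) - b) ^ n.totient ≤ cyc n a b := by
  have hb' : (((b : ℕ) : ℤ) : ℝ) ≠ 0 := by positivity
  have hbr : (0 : ℝ) < b := by exact_mod_cast hb
  have habr : (b : ℝ) < a := by exact_mod_cast hab
  have hq : 1 < (a : ℝ) / b := by rw [lt_div_iff₀ hbr]; linarith
  have h := sub_one_pow_totient_le_cyclotomic_eval hq n
  have h1 := cyc_cast (R := ℝ) n a b hb'
  have h2 : ((((a : ℤ) - b) ^ n.totient : ℤ) : ℝ) ≤ ((cyc n a b : ℤ) : ℝ) := by
    rw [h1]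
    push_cast
    calc ((a : ℝ) - b) ^ n.totient = (b : ℝ) ^ n.totient * ((a : ℝ) / b - 1) ^ n.totient := by
          rw [← mul_pow]; congr 1; field_simp
      _ ≤ (b : ℝ) ^ n.totient * eval ((a : ℝ) / b) (cyclotomic n ℝ) :=
          mul_le_mul_of_nonneg_left h (by positivity)
  exact_mod_cast h2

/-- The upper bound for `Φ_n(a, b)`. -/
theorem cyc_le (n : ℕ) {a b : ℕ} (hb : 0 < b) (hab : b < a) :
    cyc n a b ≤ ((a : ℤ) + b) ^ n.totient := by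
  have hb' : (((b : ℕ) : ℤ) : ℝ) ≠ 0 := by positivity
  have hbr : (0 : ℝ) < b := by exact_mod_cast hb
  have habr : (b : ℝ) < a := by exact_mod_cast hab
  have hq : 1 < (a : ℝ) / b := by rw [lt_div_iff₀ hbr]; linarith
  have h := cyclotomic_eval_le_add_one_pow_totient hq n
  have h1 := cyc_cast (R := ℝ) n a b hb'
  have h2 : ((cyc n a b : ℤ) : ℝ) ≤ ((((a : ℤ) + b) ^ n.totient : ℤ) : ℝ) := by
    rw [h1]
    push_cast
    calc (b : ℝ) ^ n.totient * eval ((a : ℝ) / b) (cyclotomic n ℝ)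
        ≤ (b : ℝ) ^ n.totient * ((a : ℝ) / b + 1) ^ n.totient :=
          mul_le_mul_of_nonneg_left h (by positivity)
      _ = ((a : ℝ) + b) ^ n.totient := by rw [← mul_pow]; congr 1; field_simp
  exact_mod_cast h2

/-- `Φ_{np}(a, b) = Φ_n(a ^ p, b ^ p)` for `p ∣ n`. -/
theorem cyc_mul_of_dvd {n p : ℕ} (hp : p.Prime) (h : p ∣ n) {a b : ℤ} (hb : b ≠ 0) :
    cyc (n * p) a b = cyc n (a ^ p) (b ^ p) := by
  have hb' : ((b : ℤ) : ℚ) ≠ 0 := by exact_mod_cast hb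
  have hb2 : ((b ^ p : ℤ) : ℚ) ≠ 0 := by push_cast; exact pow_ne_zero _ hb'
  have h1 := cyc_cast (R := ℚ) (n * p) a b hb'
  have h2 := cyc_cast (R := ℚ) n (a ^ p) (b ^ p) hb2
  have h3 := congrArg (eval ((a : ℚ) / b)) (cyclotomic_expand_eq_cyclotomic hp h ℚ)
  rw [expand_eval] at h3
  have h4 : ((cyc (n * p) a b : ℤ) : ℚ) = ((cyc n (a ^ p) (b ^ p) : ℤ) : ℚ) := by
    rw [h1, h2, ← h3, mul_comm n p, Nat.totient_mul_of_prime_of_dvd hp h, pow_mul]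
    push_cast
    rw [div_pow]
  exact_mod_cast h4

/-- `Φ_n(a ^ p, b ^ p) = Φ_{np}(a, b) Φ_n(a, b)` for `p ∤ n`. -/
theorem cyc_mul_of_not_dvd {n p : ℕ} (hp : p.Prime) (h : ¬ p ∣ n) {a b : ℤ} (hb : b ≠ 0) :
    cyc n (a ^ p) (b ^ p) = cyc (n * p) a b * cyc n a b := by
  have hb' : ((b : ℤ) : ℚ) ≠ 0 := by exact_mod_cast hb
  have hb2 : ((b ^ p : ℤ) : ℚ) ≠ 0 := by push_cast; exact pow_ne_zero _ hb'
  have h1 := cyc_cast (R := ℚ) (n * p) a b hb'
  have h0 := cyc_cast (R := ℚ) n a b hb'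
  have h2 := cyc_cast (R := ℚ) n (a ^ p) (b ^ p) hb2
  have h3 := congrArg (eval ((a : ℚ) / b)) (cyclotomic_expand_eq_cyclotomic_mul hp h ℚ)
  rw [expand_eval, eval_mul] at h3
  have h4 : ((cyc n (a ^ p) (b ^ p) : ℤ) : ℚ) = ((cyc (n * p) a b * cyc n a b : ℤ) : ℚ) := by
    push_cast
    rw [h1, h2, h0, mul_comm n p, Nat.totient_mul_of_prime_of_not_dvd hp h]
    push_cast
    rw [← div_pow, h3, mul_comm n p, ← pow_mul]
    have h5 : p * n.totient = (p - 1) * n.totient + n.totient := by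
      obtain ⟨q, rfl⟩ : ∃ q, p = q + 1 := ⟨p - 1, by have := hp.pos; omega⟩
      rw [Nat.add_sub_cancel]; ring
    rw [h5, pow_add]
    ring
  exact_mod_cast h4

end Fermat.Agent.Cor.Zsig
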