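import Fermat.Agent.Corollaries.Zsig.Basic

/-!
# Zsigmondy's theorem

Let `a > b ≥ 1` be coprime and `n ≥ 1`. A *primitive* prime divisor of `a ^ n - b ^ n` is a prime
which divides `a ^ n - b ^ n` but no `a ^ k - b ^ k` with `0 < k < n`. Zsigmondy's theorem (1892;
Bang 1886 for `b = 1`): there is one, except in the cases `n = 1`, `a = b + 1`; `n = 2`, `a + b` a
power of two; `n = 6`, `a = 2`, `b = 1`.
-/

namespace Fermat.Agent.Cor.Zsig

/-- `p` is a primitive prime divisor of `a ^ n - b ^ n`. -/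
def IsPrim (a b n p : ℕ) : Prop :=
  p.Prime ∧ p ∣ a ^ n - b ^ n ∧ ∀ k, 0 < k → k < n → ¬ p ∣ a ^ k - b ^ k

theorem dvd_iff {a b : ℕ} (hab : b < a) (p k : ℕ) :
    p ∣ a ^ k - b ^ k ↔ (p : ℤ) ∣ (a : ℤ) ^ k - (b : ℤ) ^ k := by
  rw [← Int.natCast_dvd_natCast, Nat.cast_sub (Nat.pow_le_pow_left hab.le k)]
  push_cast
  exact Iff.rfl

theorem not_dvd_of_coprime {a b p n : ℕ} (hc : a.Coprime b) (hp : p.Prime)
    (h : (p : ℤ) ∣ (a : ℤ) ^ n - (b : ℤ) ^ n) (hn : 0 < n) :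
    ¬ (p : ℤ) ∣ (a : ℤ) ∧ ¬ (p : ℤ) ∣ (b : ℤ) := by
  have hpp : Prime (p : ℤ) := Nat.prime_iff_prime_int.1 hp
  have key : (p : ℤ) ∣ (a : ℤ) ↔ (p : ℤ) ∣ (b : ℤ) := by
    constructor
    · intro h1
      exact hpp.dvd_of_dvd_pow ((dvd_sub_right (dvd_pow h1 hn.ne')).1 h)
    · intro h1
      exact hpp.dvd_of_dvd_pow ((dvd_sub_left (dvd_pow h1 hn.ne')).1 h)
  have hnot : ¬ ((p : ℤ) ∣ (a : ℤ) ∧ (p : ℤ) ∣ (b : ℤ)) := by
    rintro ⟨h1, h2⟩
    exact Nat.not_coprime_of_dvd_of_dvd hp.one_lt (Int.natCast_dvd_natCast.1 h1)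
      (Int.natCast_dvd_natCast.1 h2) hc
  tauto

/-- If there is no primitive prime divisor then `Φ_n(a, b)` is the greatest prime divisor `p` of
`n`. -/
theorem cyc_eq_prime {a b n : ℕ} (hb : 0 < b) (hab : b < a) (hc : a.Coprime b) (hn : 3 ≤ n)
    (h : ¬ ∃ p, IsPrim a b n p) :
    ∃ p k m : ℕ, p.Prime ∧ cyc n a b = p ∧ 1 ≤ k ∧ ¬ p ∣ m ∧ n = p ^ k * m ∧ m ∣ p - 1 := by
  have hb0 : ((b : ℕ) : ℤ) ≠ 0 := by exact_mod_cast hb.ne'
  have hne : ∀ d : ℕ, 0 < d → (a : ℤ) ^ d ≠ (b : ℤ) ^ d := by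
    intro d hd h1
    have h2 : a ^ d = b ^ d := by exact_mod_cast h1
    exact absurd (Nat.pow_left_injective hd.ne' h2) hab.ne'
  have hlt : 1 < cyc n a b := by
    refine lt_of_le_of_lt ?_ (lt_cyc (by omega) hb hab)
    exact one_le_pow₀ (by omega)
  obtain ⟨N, hN⟩ : ∃ N : ℕ, cyc n a b = N := ⟨(cyc n a b).toNat, by omega⟩
  have hN1 : 1 < N := by rw [hN] at hlt; exact_mod_cast hlt
  have key : ∀ q : ℕ, q.Prime → q ∣ N → (∃ k m, 1 ≤ k ∧ ¬ q ∣ m ∧ n = q ^ k * m ∧ m ∣ q - 1) ∧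
      ¬ q ^ 2 ∣ N := by
    intro q hq hqN
    have h1 : (q : ℤ) ∣ cyc n a b := by rw [hN]; exact_mod_cast hqN
    have h2 : (q : ℤ) ∣ (a : ℤ) ^ n - (b : ℤ) ^ n := h1.trans (cyc_dvd n a b hb0)
    obtain ⟨hqa, hqb⟩ := not_dvd_of_coprime hc hq h2 (by omega)
    have hqn : q ∣ n := by
      by_contra hqn
      refine h ⟨q, hq, (dvd_iff hab q n).2 h2, fun k hk hkn => ?_⟩
      rw [dvd_iff hab]
      exact prim_of_dvd_cyc hq hqb h1 hqn hk hkn
    obtain ⟨k, m, e1, e2, e3, e4, _⟩ := exists_of_dvd_cyc hq hqb h1 (by omega) hqn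
    refine ⟨⟨k, m, e1, e2, e3, e4⟩, fun h3 => ?_⟩
    refine sq_not_dvd hq hqa hqb hne h1 hn hqn ?_
    rw [hN]
    exact_mod_cast h3
  have hp : N.minFac.Prime := Nat.minFac_prime (by omega)
  obtain ⟨⟨k, m, h1, h2, h3, h4⟩, h5⟩ := key _ hp (Nat.minFac_dvd N)
  refine ⟨N.minFac, k, m, hp, ?_, h1, h2, h3, h4⟩
  rw [hN]
  obtain ⟨r, hr⟩ := Nat.minFac_dvd N
  by_cases hr1 : r = 1
  · rw [hr1, mul_one] at hr
    exact_mod_cast hr
  exfalso
  obtain ⟨q, hq, hqr⟩ := Nat.exists_prime_and_dvd hr1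
  have hqN : q ∣ N := by rw [hr]; exact hqr.mul_left _
  have hqp : q ≠ N.minFac := by
    rintro hqp
    apply h5
    rw [sq]
    conv_rhs => rw [hr]
    exact mul_dvd_mul_left _ (hqp ▸ hqr)
  obtain ⟨⟨k', m', h1', h2', h3', h4'⟩, _⟩ := key q hq hqN
  have hlt1 : ∀ (x y k m : ℕ), x.Prime → y.Prime → x ≠ y → x ∣ n → n = y ^ k * m → m ∣ y - 1 →
      x < y := by
    intro x y k m hx hy hxy hxn hn' hm
    rw [hn'] at hxn
    rcases hx.dvd_mul.1 hxn with h6 | h6
    · exact absurd ((Nat.prime_dvd_prime_iff_eq hx hy).1 (hx.dvd_of_dvd_pow h6)) hxy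
    · have h7 := Nat.le_of_dvd (by have := hy.two_le; omega) (h6.trans hm)
      have := hy.two_le
      omega
  have hqn : q ∣ n := by rw [h3']; exact (dvd_pow_self q (by omega)).mul_right _
  have hpn : N.minFac ∣ n := by
    conv_rhs => rw [h3]
    exact (dvd_pow_self _ (by omega)).mul_right _
  have l1 := hlt1 q N.minFac k m hq hp hqp hqn h3 h4
  have l2 := hlt1 N.minFac q k' m' hp hq hqp.symm hpn h3' h4'
  omega

theorem pow_bound {b p : ℕ} (hb : 1 ≤ b) (hp : 4 ≤ p) :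
    p * (2 * b + 1) < (b + 1) ^ p - b ^ p := by
  induction p, hp using Nat.le_induction with
  | base =>
    have h1 : (b + 1) ^ 4 = b ^ 4 + (4 * b ^ 3 + 6 * b ^ 2 + 4 * b + 1) := by ring
    rw [h1, Nat.add_sub_cancel_left]
    obtain ⟨c, rfl⟩ : ∃ c, b = c + 1 := ⟨b - 1, by omega⟩
    ring_nf
    nlinarith [Nat.zero_le (c ^ 3), Nat.zero_le (c ^ 2), Nat.zero_le c]
  | succ p hp ih =>
    have h1 : b ^ p ≤ (b + 1) ^ p := Nat.pow_le_pow_left (by omega) p
    obtain ⟨c, hc⟩ := Nat.exists_eq_add_of_le h1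
    rw [hc, Nat.add_sub_cancel_left] at ih
    have h2 : (b + 1) ^ (p + 1) = b ^ (p + 1) + (b ^ p + (b + 1) * c) := by
      rw [pow_succ, hc]; ring
    rw [h2, Nat.add_sub_cancel_left]
    nlinarith [Nat.zero_le (b ^ p)]

/-- **Zsigmondy's theorem** for `n ≥ 3`. -/
theorem exists_prim {a b n : ℕ} (hb : 0 < b) (hab : b < a) (hc : a.Coprime b) (hn : 3 ≤ n)
    (hex : ¬ (n = 6 ∧ a = 2 ∧ b = 1)) : ∃ p, IsPrim a b n p := by
  by_contra h
  obtain ⟨p, k, m, hp, hN, hk, hm, hnk, hmp⟩ := cyc_eq_prime hb hab hc hn h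
  have hb0 : ((b : ℕ) : ℤ) ≠ 0 := by exact_mod_cast hb.ne'
  have hp2 := hp.two_le
  have hm0 : 0 < m := Nat.pos_of_ne_zero (by rintro rfl; exact hm (dvd_zero p))
  have hpn : p ∣ n := by rw [hnk]; exact (dvd_pow_self p (by omega)).mul_right _
  -- a general bound
  have gen : ∀ (l : ℕ) (x y : ℕ), p ∣ l → 0 < l → 0 < y → y + 2 ≤ x → cyc l x y ≠ p := by
    intro l x y hpl hl hy hxy h1
    have h2 : p ≤ l := Nat.le_of_dvd hl hpl
    have h3 := lt_cyc (n := l) (by omega) hy (by omega : y < x)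
    rw [h1] at h3
    have h4 : p - 1 ≤ l.totient := by
      rw [← Nat.totient_prime hp]
      exact Nat.le_of_dvd (Nat.totient_pos.2 hl) (Nat.totient_dvd_of_dvd hpl)
    have h5 : (2 : ℤ) ^ (p - 1) ≤ ((x : ℤ) - y) ^ l.totient :=
      (pow_le_pow_left₀ (by norm_num) (by omega) _).trans
        (pow_le_pow_right₀ (by omega) h4)
    have h6 : p ≤ 2 ^ (p - 1) := by
      have := Nat.lt_two_pow_self (n := p - 1)
      omega
    have h7 : (p : ℤ) ≤ (2 : ℤ) ^ (p - 1) := by exact_mod_cast h6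
    omega
  by_cases h2 : b + 2 ≤ a
  · exact gen n a b hpn (by omega) hb h2 hN
  have ha : a = b + 1 := by omega
  by_cases hk2 : 2 ≤ k
  · -- `p ^ 2 ∣ n`
    obtain ⟨l, rfl⟩ : ∃ l, k = l + 2 := ⟨k - 2, by omega⟩
    have h3 : n = (p ^ (l + 1) * m) * p := by rw [hnk]; ring
    have h4 : p ∣ p ^ (l + 1) * m := (dvd_pow_self p (by omega)).mul_right _
    rw [h3, cyc_mul_of_dvd hp h4 hb0] at hN
    refine gen (p ^ (l + 1) * m) (a ^ p) (b ^ p) h4 (by positivity) (by positivity) ?_ ?_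
    · have h5 : b ^ 2 + 2 ≤ a ^ 2 := by rw [ha]; nlinarith
      have h6 : ∀ e : ℕ, b ^ (e + 2) + 2 ≤ a ^ (e + 2) := by
        intro e
        induction e with
        | zero => simpa using h5
        | succ e ih =>
          have : b ^ (e + 1 + 2) = b * b ^ (e + 2) := by ring
          rw [this, show a ^ (e + 1 + 2) = a * a ^ (e + 2) by ring]
          refine le_trans ?_ (Nat.mul_le_mul hab.le ih)
          rw [mul_add]
          omega
      obtain ⟨e, rfl⟩ : ∃ e, p = e + 2 := ⟨p - 2, by omega⟩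
      exact h6 e
    · push_cast
      exact hN
  · have hk1 : k = 1 := by omega
    subst hk1
    rw [pow_one] at hnk
    have hp3 : p ≠ 2 := by
      rintro rfl
      have : m = 1 := Nat.dvd_one.1 hmp
      omega
    by_cases hp4 : 4 ≤ p
    · have h3 : n = m * p := by rw [hnk, mul_comm]
      have h4 := cyc_mul_of_not_dvd hp hm (a := (a : ℤ)) hb0
      rw [← h3, hN] at h4
      have hab' : b ^ p < a ^ p := Nat.pow_lt_pow_left hab (by omega)
      have h5 := le_cyc m (a := a ^ p) (b := b ^ p) (by positivity) hab'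
      have h6 := cyc_le m hb hab
      push_cast at h5
      rw [h4] at h5
      have h7 : (p : ℤ) * (a + b) < (a : ℤ) ^ p - (b : ℤ) ^ p := by
        have h8 := pow_bound (b := b) (by omega) hp4
        have h9 : ((p * (2 * b + 1) : ℕ) : ℤ) < (((b + 1) ^ p - b ^ p : ℕ) : ℤ) := by
          exact_mod_cast h8
        rw [Nat.cast_sub (Nat.pow_le_pow_left (by omega) p)] at h9
        push_cast at h9
        rw [ha]
        push_cast
        linarith
      have hφ : 1 ≤ m.totient := Nat.totient_pos.2 hm0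
      have h10 : ((p : ℤ) * (a + b)) ^ m.totient < ((a : ℤ) ^ p - (b : ℤ) ^ p) ^ m.totient :=
        pow_lt_pow_left₀ h7 (by positivity) (by omega)
      have h11 : (p : ℤ) * ((a : ℤ) + b) ^ m.totient ≤ ((p : ℤ) * (a + b)) ^ m.totient := by
        rw [mul_pow]
        refine mul_le_mul_of_nonneg_right ?_ (by positivity)
        exact le_self_pow₀ (by exact_mod_cast hp.one_le) (by omega)
      have h12 : (p : ℤ) * cyc m a b ≤ (p : ℤ) * ((a : ℤ) + b) ^ m.totient :=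
        mul_le_mul_of_nonneg_left h6 (by positivity)
      linarith
    · have hp3 : p = 3 := by omega
      subst hp3
      have hm2 : m = 1 ∨ m = 2 := by
        have := Nat.le_of_dvd (by norm_num) hmp
        omega
      have hbq : ((b : ℤ) : ℚ) ≠ 0 := by exact_mod_cast hb.ne'
      rcases hm2 with rfl | rfl
      · -- `n = 3`
        have h4 := cyc_mul_of_not_dvd hp hm (a := (a : ℤ)) hb0
        have h5 := cyc_cast (R := ℚ) n a b hbq
        rw [hN, hnk, Polynomial.cyclotomic_three, Nat.totient_prime hp] at h5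
        simp only [Polynomial.eval_add, Polynomial.eval_pow, Polynomial.eval_X,
          Polynomial.eval_one] at h5
        push_cast at h5
        have hbq' : (b : ℚ) ≠ 0 := by exact_mod_cast hb.ne'
        have h6 : (3 : ℚ) = (a : ℚ) ^ 2 + a * b + b ^ 2 := by
          rw [h5]; field_simp
        have h7 : 3 = a ^ 2 + a * b + b ^ 2 := by exact_mod_cast h6
        nlinarith
      · -- `n = 6`
        have h5 := cyc_cast (R := ℚ) n a b hbq
        have hφ : (3 * 2).totient = 2 := by decide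
        rw [hN, hnk, hφ, show 3 * 2 = 6 by norm_num, Polynomial.cyclotomic_six] at h5
        simp only [Polynomial.eval_add, Polynomial.eval_sub, Polynomial.eval_pow,
          Polynomial.eval_X, Polynomial.eval_one] at h5
        push_cast at h5
        have hbq' : (b : ℚ) ≠ 0 := by exact_mod_cast hb.ne'
        have h6 : (3 : ℚ) = (a : ℚ) ^ 2 - a * b + b ^ 2 := by
          rw [h5]; field_simp
        rw [ha] at h6
        push_cast at h6
        have h7 : (3 : ℚ) = (b : ℚ) ^ 2 + b + 1 := by rw [h6]; ring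
        have h8 : 3 = b ^ 2 + b + 1 := by exact_mod_cast h7
        have h9 : b = 1 := by nlinarith
        exact hex ⟨by omega, by omega, h9⟩

/-- A primitive prime divisor of `a ^ n - b ^ n`, `a`, `b` coprime, is `≡ 1` modulo `n`. -/
theorem IsPrim.dvd_sub_one {a b n p : ℕ} (hab : b < a) (hc : a.Coprime b) (hn : 0 < n)
    (h : IsPrim a b n p) : n ∣ p - 1 := by
  obtain ⟨hp, h1, h2⟩ := h
  have : Fact p.Prime := ⟨hp⟩
  rw [dvd_iff hab] at h1
  obtain ⟨hpa, hpb⟩ := not_dvd_of_coprime hc hp h1 hn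
  have h3 := (pow_eq_one_iff hpb n).2 h1
  have h0 : ((a : ℤ) : ZMod p) / ((b : ℤ) : ZMod p) ≠ 0 := by
    intro h4
    rw [h4, zero_pow hn.ne'] at h3
    exact zero_ne_one h3
  have hord : orderOf (((a : ℤ) : ZMod p) / ((b : ℤ) : ZMod p)) = n := by
    have h5 := orderOf_dvd_of_pow_eq_one h3
    rcases (Nat.le_of_dvd hn h5).lt_or_eq with h6 | h6
    · refine absurd ?_ (h2 _ (Nat.pos_of_dvd_of_pos h5 hn) h6)
      rw [dvd_iff hab]
      exact (pow_eq_one_iff hpb _).1 (pow_orderOf_eq_one _)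
    · exact h6
  rw [← hord]
  exact ZMod.orderOf_dvd_card_sub_one h0

/-- **Zsigmondy's theorem** (1892): for coprime `a > b ≥ 1` and `n ≥ 1` the number `a ^ n - b ^ n`
has a prime divisor which divides no `a ^ k - b ^ k` with `0 < k < n` if and only if we are not in
one of the three cases: `n = 1` and `a = b + 1`; `n = 2` and `a + b` is a power of two; `n = 6`,
`a = 2` and `b = 1`. -/
theorem zsigmondy {a b n : ℕ} (hb : 0 < b) (hab : b < a) (hc : a.Coprime b) (hn : 0 < n) :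
    (∃ p, p.Prime ∧ p ∣ a ^ n - b ^ n ∧ ∀ k, 0 < k → k < n → ¬ p ∣ a ^ k - b ^ k) ↔
      ¬ (n = 1 ∧ a = b + 1) ∧ ¬ (n = 2 ∧ ∃ k, a + b = 2 ^ k) ∧ ¬ (n = 6 ∧ a = 2 ∧ b = 1) := by
  have hsq : a ^ 2 - b ^ 2 = (a + b) * (a - b) := Nat.sq_sub_sq a b
  constructor
  · rintro ⟨p, hp, h1, h2⟩
    refine ⟨?_, ?_, ?_⟩
    · rintro ⟨rfl, rfl⟩
      rw [pow_one, pow_one, Nat.add_sub_cancel_left] at h1
      exact hp.one_lt.ne' (Nat.dvd_one.1 h1)
    · rintro ⟨rfl, k, hk⟩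
      have h3 : ¬ p ∣ a - b := by simpa using h2 1 one_pos (by norm_num)
      rw [hsq] at h1
      have h4 : p ∣ a + b := (hp.dvd_mul.1 h1).resolve_right h3
      have h5 : p = 2 := by
        rw [hk] at h4
        exact (Nat.prime_dvd_prime_iff_eq hp Nat.prime_two).1 (hp.dvd_of_dvd_pow h4)
      subst h5
      exact h3 (by omega)
    · rintro ⟨rfl, rfl, rfl⟩
      norm_num at h1
      have h3 : p ∣ 3 ^ 2 * 7 := by norm_num; exact h1
      rcases hp.dvd_mul.1 h3 with h4 | h4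
      · have h5 := (Nat.prime_dvd_prime_iff_eq hp Nat.prime_three).1 (hp.dvd_of_dvd_pow h4)
        exact h2 2 (by norm_num) (by norm_num) (by rw [h5]; norm_num)
      · have h5 := (Nat.prime_dvd_prime_iff_eq hp (by norm_num)).1 h4
        exact h2 3 (by norm_num) (by norm_num) (by rw [h5]; norm_num)
  · rintro ⟨h1, h2, h3⟩
    rcases (by omega : n = 1 ∨ n = 2 ∨ 3 ≤ n) with rfl | rfl | h4
    · have h5 : a - b ≠ 1 := fun h => h1 ⟨rfl, by omega⟩
      obtain ⟨p, hp, hpd⟩ := Nat.exists_prime_and_dvd h5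
      exact ⟨p, hp, by simpa using hpd, fun k hk hk1 => by omega⟩
    · have h5 : ∃ p, p.Prime ∧ p ∣ a + b ∧ p ≠ 2 := by
        by_contra h6
        push Not at h6
        refine h2 ⟨rfl, (a + b).primeFactorsList.length, ?_⟩
        exact Nat.eq_prime_pow_of_unique_prime_dvd (by omega) (fun {d} hd hdd => h6 d hd hdd)
      obtain ⟨p, hp, hpd, hp2⟩ := h5
      refine ⟨p, hp, by rw [hsq]; exact hpd.mul_right _, fun k hk hk1 h6 => ?_⟩
      have hk' : k = 1 := by omega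
      subst hk'
      rw [pow_one, pow_one] at h6
      have h7 : p ∣ 2 * a := by
        have := dvd_add hpd h6
        rwa [show a + b + (a - b) = 2 * a by omega] at this
      have h8 : p ∣ 2 * b := by
        have := Nat.dvd_sub hpd h6
        rwa [show a + b - (a - b) = 2 * b by omega] at this
      have h9 : ∀ x, p ∣ 2 * x → p ∣ x := fun x hx =>
        (hp.dvd_mul.1 hx).resolve_left
          (fun h => hp2 ((Nat.prime_dvd_prime_iff_eq hp Nat.prime_two).1 h))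
      exact Nat.not_coprime_of_dvd_of_dvd hp.one_lt (h9 _ h7) (h9 _ h8) hc
    · exact exists_prim hb hab hc h4 h3

/-- **Bang's theorem** (1886): for `a ≥ 2`, `n ≥ 2` the number `a ^ n - 1` has a prime divisor which
divides no `a ^ k - 1` with `0 < k < n`, except for `n = 2`, `a + 1` a power of two, and for
`2 ^ 6 - 1`. -/
theorem bang {a n : ℕ} (ha : 2 ≤ a) (hn : 2 ≤ n) :
    (∃ p, p.Prime ∧ p ∣ a ^ n - 1 ∧ ∀ k, 0 < k → k < n → ¬ p ∣ a ^ k - 1) ↔
      ¬ (n = 2 ∧ ∃ k, a + 1 = 2 ^ k) ∧ ¬ (n = 6 ∧ a = 2) := by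
  have h := zsigmondy (a := a) (b := 1) (n := n) one_pos (by omega) (Nat.coprime_one_right a)
    (by omega)
  simp only [one_pow] at h
  rw [h]
  constructor
  · rintro ⟨_, h2, h3⟩
    exact ⟨h2, fun h4 => h3 ⟨h4.1, h4.2, trivial⟩⟩
  · rintro ⟨h2, h3⟩
    exact ⟨by omega, h2, fun h4 => h3 ⟨h4.1, h4.2.1⟩⟩

/-- Every `n ≥ 1` other than `1` and `6` is the order of `2` modulo some prime. -/
theorem exists_orderOf_two {n : ℕ} (hn : 2 ≤ n) (h6 : n ≠ 6) :
    ∃ p, p.Prime ∧ orderOf (2 : ZMod p) = n := by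
  have h : ∃ p, p.Prime ∧ p ∣ 2 ^ n - 1 ∧ ∀ k, 0 < k → k < n → ¬ p ∣ 2 ^ k - 1 := by
    rw [bang le_rfl hn]
    refine ⟨?_, fun h => h6 h.1⟩
    rintro ⟨-, k, hk⟩
    rcases (by omega : k = 0 ∨ k = 1 ∨ 2 ≤ k) with rfl | rfl | h2
    · omega
    · omega
    · obtain ⟨j, rfl⟩ : ∃ j, k = j + 2 := ⟨k - 2, by omega⟩
      rw [pow_add] at hk
      omega
  obtain ⟨p, hp, h1, h2⟩ := h
  have : Fact p.Prime := ⟨hp⟩
  have key : ∀ k : ℕ, (2 : ZMod p) ^ k = 1 ↔ p ∣ 2 ^ k - 1 := by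
    intro k
    rw [← ZMod.natCast_eq_zero_iff, Nat.cast_sub Nat.one_le_two_pow]
    push_cast
    exact sub_eq_zero.symm
  refine ⟨p, hp, ?_⟩
  have h3 := orderOf_dvd_of_pow_eq_one ((key n).2 h1)
  rcases (Nat.le_of_dvd (by omega) h3).lt_or_eq with h4 | h4
  · exact absurd ((key _).1 (pow_orderOf_eq_one _))
      (h2 _ (Nat.pos_of_dvd_of_pos h3 (by omega)) h4)
  · exact h4

/-- **Zsigmondy's theorem for sums**: for coprime `a > b ≥ 1` and `n ≥ 2` the number
`a ^ n + b ^ n` has a prime divisor which divides no `a ^ k + b ^ k` with `0 < k < n`, except for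
`2 ^ 3 + 1 ^ 3`. -/
theorem zsigmondy_add {a b n : ℕ} (hb : 0 < b) (hab : b < a) (hc : a.Coprime b) (hn : 2 ≤ n) :
    (∃ p, p.Prime ∧ p ∣ a ^ n + b ^ n ∧ ∀ k, 0 < k → k < n → ¬ p ∣ a ^ k + b ^ k) ↔
      ¬ (n = 3 ∧ a = 2 ∧ b = 1) := by
  have hfac : ∀ k, a ^ (2 * k) - b ^ (2 * k) = (a ^ k + b ^ k) * (a ^ k - b ^ k) := by
    intro k
    rw [mul_comm 2 k, pow_mul, pow_mul, Nat.sq_sub_sq]
  constructor
  · rintro ⟨p, hp, h1, h2⟩ ⟨rfl, rfl, rfl⟩
    norm_num at h1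
    have h3 : p ∣ 3 ^ 2 := by norm_num; exact h1
    have h4 := (Nat.prime_dvd_prime_iff_eq hp Nat.prime_three).1 (hp.dvd_of_dvd_pow h3)
    exact h2 1 (by norm_num) (by norm_num) (by rw [h4]; norm_num)
  · intro h
    obtain ⟨p, hp, h1, h2⟩ := exists_prim (n := 2 * n) hb hab hc (by omega)
      (fun h6 => h ⟨by omega, h6.2⟩)
    rw [hfac] at h1
    refine ⟨p, hp, (hp.dvd_mul.1 h1).resolve_right (h2 n (by omega) (by omega)), ?_⟩
    intro k hk hkn h3
    refine h2 (2 * k) (by omega) (by omega) ?_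
    rw [hfac]
    exact h3.mul_right _

/-- The numbers `a ^ m - b ^ m` and `a ^ n - b ^ n` (`a > b ≥ 1` coprime, `1 ≤ m < n`) have the same
prime divisors if and only if `m = 1`, `n = 2` and `a + b` is a power of two. -/
theorem primeFactors_eq_iff {a b m n : ℕ} (hb : 0 < b) (hab : b < a) (hc : a.Coprime b)
    (hm : 0 < m) (hmn : m < n) :
    (a ^ m - b ^ m).primeFactors = (a ^ n - b ^ n).primeFactors ↔
      m = 1 ∧ n = 2 ∧ ∃ k, a + b = 2 ^ k := by
  have hne : ∀ k, 0 < k → a ^ k - b ^ k ≠ 0 := fun k hk => by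
    have := Nat.pow_lt_pow_left hab hk.ne'
    omega
  constructor
  · intro h
    have h1 : ¬ ∃ p, p.Prime ∧ p ∣ a ^ n - b ^ n ∧ ∀ k, 0 < k → k < n → ¬ p ∣ a ^ k - b ^ k := by
      rintro ⟨p, hp, h2, h3⟩
      have h4 : p ∈ (a ^ n - b ^ n).primeFactors :=
        Nat.mem_primeFactors.2 ⟨hp, h2, hne n (by omega)⟩
      rw [← h] at h4
      exact h3 m hm hmn (Nat.dvd_of_mem_primeFactors h4)
    rw [zsigmondy hb hab hc (by omega)] at h1
    by_cases h2 : n = 2 ∧ ∃ k, a + b = 2 ^ k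
    · exact ⟨by omega, h2.1, h2.2⟩
    · have h3 : n = 6 ∧ a = 2 ∧ b = 1 := by
        by_contra h3
        exact h1 ⟨by omega, h2, h3⟩
      obtain ⟨rfl, rfl, rfl⟩ := h3
      exfalso
      have h7 : 7 ∈ (2 ^ 6 - 1 ^ 6).primeFactors :=
        Nat.mem_primeFactors.2 ⟨by norm_num, by norm_num, by norm_num⟩
      have h3 : 3 ∈ (2 ^ 6 - 1 ^ 6).primeFactors :=
        Nat.mem_primeFactors.2 ⟨by norm_num, by norm_num, by norm_num⟩
      rw [← h] at h7 h3
      have h7' := Nat.dvd_of_mem_primeFactors h7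
      have h3' := Nat.dvd_of_mem_primeFactors h3
      clear h h1 h2
      interval_cases m <;> revert h7' h3' <;> norm_num
  · rintro ⟨rfl, rfl, k, hk⟩
    rw [pow_one, pow_one, Nat.sq_sub_sq, Nat.primeFactors_mul (by omega) (by omega)]
    symm
    rw [Finset.union_eq_right]
    intro p hp
    rw [Nat.mem_primeFactors] at hp
    obtain ⟨hp, h1, h2⟩ := hp
    have h5 : p = 2 := by
      rw [hk] at h1
      exact (Nat.prime_dvd_prime_iff_eq hp Nat.prime_two).1 (hp.dvd_of_dvd_pow h1)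
    subst h5
    exact Nat.mem_primeFactors.2 ⟨hp, by omega, by omega⟩

end Fermat.Agent.Cor.Zsig
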